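/-
GATE-Z / LOC-p / (b) BOB, the CHAIN binder of helper73's `EisKill` (helper30):
**NODE36 ∘ A5P at `Kum` level.**  At a level `N = 1 * q` (`q ≠ 2, 3` prime, `A ∣ q`), for EVERY
modulus `m ≠ 0`: an `I_A`-fixed `m`-divisible unit `u` of `F_N` which is a unit for both Gauss
valuations has

  `36 • [u] ∈ ker r₁ ⊓ ker r₂ ⊆ Kum_m(F_N)`.

(`GZ/LocP/Node36.nodeHyp36`, helper26; `GZ/LocP/A5P.nsmul_kum0_mem_M0mod_of_eq`, helper99; the
dictionary `M⁰_m ↔ ker r₁ ⊓ ker r₂` of `GZ/LocP/E2`.)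

* `mem_kerRed_inf_of_coe_mem_M0mod` : `↑(kummerEquivFK y) ∈ M⁰_m ⟹ y ∈ ker r₁ ⊓ ker r₂`;
* **`chain36`** : the statement above (= `EisKill.ChainHyp h A m 36` unfolded);
* `chain36_level` : the same at level `p` with `h : ExactDvd p p`.
-/
import Fermat.Agent.GZ.LocP.Node36.Main
import Fermat.Agent.GZ.LocP.A5P
import Fermat.Agent.GZ.LocP.E2

set_option autoImplicit false
set_option linter.unusedSectionVars false

noncomputable section

namespace Fermat.Agent.GZ.LocP.BOB.Chain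

open AlgebraicCurve ModularCurve IsLocalRing
open Fermat.Agent.GJ.KumGroup Fermat.Agent.GJ.Kum.KumType Fermat.Agent.GK.AL
open Fermat.Agent.GK.UqKronecker Fermat.Agent.GK.SS
open Fermat.Agent.GS.F Fermat.Agent.GH.KummerEquivariant Fermat.Agent.GH.TorsionCount
open Fermat.Agent.GB.A.FP Fermat.Agent.GZ.LocP.Node36

/-- `ℚ̄`. -/
local notation "Qb" => AlgebraicClosure ℚ

section Dict

variable {N : ℕ} [NeZero N] {A : ValuationSubring Qb} {q : ℕ} (h : ExactDvd q N)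

/-- the dictionary, backwards: a Kummer class whose image in `J₀(N)` lies in `M⁰_m` lies in
`ker r₁ ⊓ ker r₂`. -/
theorem mem_kerRed_inf_of_coe_mem_M0mod {m : ℕ} [NeZero m] {y : Additive (Kum Qb (FK N) m)}
    (hy : ((kummerEquivFK N m y : Pic0.torsion Qb (FK N) m) : JZero N) ∈ M0mod N A h m) :
    y ∈ kerRed N A m ⊓ kerRed₂ h A m := by
  obtain ⟨y', h1, h2, h3⟩ := Fermat.Agent.GZ.LocP.E2.exists_kum_of_mem_M0mod h hy
  have e : y' = y := (kummerEquivFK N m).injective (Subtype.ext h3)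
  rw [← e]
  exact ⟨h1, h2⟩

end Dict

/-- **NODE36 ∘ A5P at `Kum` level**, level `N = 1 * q`. -/
theorem chain36 {N q : ℕ} [NeZero N] [NeZero q] (h : ExactDvd q N) (hN : N = 1 * q)
    (A : ValuationSubring Qb) (hA : A.LiesOverPrime q) (hq2 : q ≠ 2) (hq3 : q ≠ 3)
    (m : ℕ) [NeZero m] (u : pDivUnits Qb (FK N) m)
    (hfix : ∀ σ ∈ A.inertiaSubgroupIn ℚ, galUnits N σ (u : (FK N)ˣ) = (u : (FK N)ˣ))
    (hu : BothUnit h A (u : (FK N)ˣ)) :
    36 • Additive.ofMul (Kum.mk u) ∈ kerRed N A m ⊓ kerRed₂ h A m := by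
  have := hasPrincipalDivisors_FK N
  obtain ⟨h1, h2⟩ := nodeHyp36 h hq2 hA m u hfix hu
  have h0 := Fermat.Agent.GZ.LocP.A5P.nsmul_kum0_mem_M0mod_of_eq h hN A hA hq2 hq3 36 u hu
    (fun Q => by have := h1 Q; exact_mod_cast this) (fun Q => by have := h2 Q; exact_mod_cast this)
  apply mem_kerRed_inf_of_coe_mem_M0mod h
  rw [map_nsmul, AddSubmonoidClass.coe_nsmul, coe_kummerEquivFK_mk]
  rw [Fermat.Agent.GH.KummerPic.kum0_apply m u] at h0
  exact h0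

/-- the same at the level `p`, `h : ExactDvd p p`. -/
theorem chain36_level {p : ℕ} [NeZero p] (h : ExactDvd p p) (A : ValuationSubring Qb)
    (hA : A.LiesOverPrime p) (hp2 : p ≠ 2) (hp3 : p ≠ 3) (m : ℕ) [NeZero m]
    (u : pDivUnits Qb (FK p) m)
    (hfix : ∀ σ ∈ A.inertiaSubgroupIn ℚ, galUnits p σ (u : (FK p)ˣ) = (u : (FK p)ˣ))
    (hu : BothUnit h A (u : (FK p)ˣ)) :
    36 • Additive.ofMul (Kum.mk u) ∈ kerRed p A m ⊓ kerRed₂ h A m :=
  chain36 h (one_mul p).symm A hA hp2 hp3 m u hfix hu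

end Fermat.Agent.GZ.LocP.BOB.Chain
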