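/-
GATE-Z / LOC-p / (b) BOB, assembly (helper30): **(b') in helper12's spelling from its `Kum`-level
form.**

`Kum`-level form (the natural output of the CASE A chain `FP.fp`, NODE36, A5P, helper73's
Eisenstein/S16 route): for every modulus `m = r ^ k`,
`∀ y ∈ FP.invSub A m, c • y ∈ kerRed N A m ⊓ kerRed₂ h A m`.

* `mem_invSub_of_fixed`      : an inertia-fixed `m`-torsion class of `J₀(N)` is `kummerEquivFK y`
                               with `y ∈ FP.invSub A m`;
* `nsmul_mem_M0mod_of_kum`   : the translation at one modulus, EVERY level `q ∥ N`;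
* **`expHyp_of_kum`**        : `BobOfExp.ExpHyp p A h r` (= (b') VERBATIM) from the `Kum`-level form;
* `bobHyp_of_kum`            : `Top.BOBHyp p A h r` (= (b) VERBATIM), via `bobHyp_of_expHyp`.
-/
import Fermat.Agent.GZ.LocP.BobOfExp
import Fermat.Agent.GZ.LocP.E2
import Fermat.Agent.GB.A.FP

set_option autoImplicit false
set_option linter.unusedSectionVars false

noncomputable section

namespace Fermat.Agent.GZ.LocP.BOB.Asm

open AlgebraicCurve ModularCurve
open Fermat.Agent.GJ.KumGroup Fermat.Agent.GJ.Kum.KumType Fermat.Agent.GK.AL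
open Fermat.Agent.GK.UqKronecker Fermat.Agent.GK.SS
open Fermat.Agent.GS.F Fermat.Agent.GH.KummerEquivariant Fermat.Agent.GH.TorsionCount
open Fermat.Agent.GB.B10.Phi2.Merge Fermat.Agent.GB.A.FP
open Fermat.Agent.GZ.LocP.Top Fermat.Agent.GZ.LocP.BobOfExp

/-- `ℚ̄`. -/
local notation "Qb" => AlgebraicClosure ℚ
local notation "GQ" => (AlgebraicClosure ℚ ≃ₐ[ℚ] AlgebraicClosure ℚ)

section General

variable {N : ℕ} [NeZero N] {A : ValuationSubring Qb} {q : ℕ} (h : ExactDvd q N)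

/-- an inertia-fixed `m`-torsion class is the image of an inertia-invariant Kummer class. -/
theorem mem_invSub_of_fixed {m : ℕ} [NeZero m] {v : JZero N} (hv : m • v = 0)
    (hfix : ∀ σ ∈ A.inertiaSubgroupIn ℚ, σ • v = v) :
    ∃ y : Additive (Kum Qb (FK N) m), y ∈ invSub (M := N) A m ∧
      ((kummerEquivFK N m y : Pic0.torsion Qb (FK N) m) : JZero N) = v := by
  have hvt : v ∈ Pic0.torsion Qb (FK N) m := by
    refine Pic0.mem_torsion.2 ?_
    rwa [natCast_zsmul]
  refine ⟨(kummerEquivFK N m).symm ⟨v, hvt⟩, fun σ hσ => ?_, ?_⟩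
  · apply (kummerEquivFK N m).injective
    apply Subtype.ext
    rw [coe_kummerEquivFK_gal, AddEquiv.apply_symm_apply]
    exact hfix σ hσ
  · rw [AddEquiv.apply_symm_apply]

/-- **the translation at one modulus**: if `c` kills `V^{I_A}` into `ker r₁ ⊓ ker r₂` in
`Kum_m(F_N)`, then `c` kills the inertia-fixed `m`-torsion of `J₀(N)` into `M⁰_m`. -/
theorem nsmul_mem_M0mod_of_kum (hA : A.LiesOverPrime q) {m : ℕ} [NeZero m] {c : ℕ}
    (hkum : ∀ y : Additive (Kum Qb (FK N) m), y ∈ invSub (M := N) A m →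
      c • y ∈ kerRed N A m ⊓ kerRed₂ h A m)
    {v : JZero N} (hv : m • v = 0) (hfix : ∀ σ ∈ A.inertiaSubgroupIn ℚ, σ • v = v) :
    c • v ∈ M0mod N A h m := by
  obtain ⟨y, hy, rfl⟩ := mem_invSub_of_fixed (A := A) hv hfix
  obtain ⟨h1, h2⟩ := hkum y hy
  have h3 := kummerEquivFK_mem_M0mod h hA h1 h2
  rwa [map_nsmul, AddSubmonoidClass.coe_nsmul] at h3

end General

/-- **(b') VERBATIM** (`BobOfExp.ExpHyp`) from the `Kum`-level form. -/
theorem expHyp_of_kum (p : ℕ) [NeZero p] (A : ValuationSubring Qb) (h : ExactDvd p p)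
    (hA : A.LiesOverPrime p) (r : ℕ) [NeZero r] (c : ℕ) (hc : 0 < c)
    (hkum : ∀ k : ℕ, ∀ y : Additive (Kum Qb (FK p) (r ^ k)), y ∈ invSub (M := p) A (r ^ k) →
      c • y ∈ kerRed p A (r ^ k) ⊓ kerRed₂ h A (r ^ k)) :
    ExpHyp p A h r :=
  ⟨c, hc, fun k _ hv hfix => nsmul_mem_M0mod_of_kum h hA (hkum k) hv hfix⟩

/-- **(b) VERBATIM** (`Top.BOBHyp`) from the `Kum`-level form. -/
theorem bobHyp_of_kum (p : ℕ) [NeZero p] (A : ValuationSubring Qb) (h : ExactDvd p p)
    (hA : A.LiesOverPrime p) (r : ℕ) [NeZero r] (c : ℕ) (hc : 0 < c)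
    (hkum : ∀ k : ℕ, ∀ y : Additive (Kum Qb (FK p) (r ^ k)), y ∈ invSub (M := p) A (r ^ k) →
      c • y ∈ kerRed p A (r ^ k) ⊓ kerRed₂ h A (r ^ k)) :
    BOBHyp p A h r :=
  bobHyp_of_expHyp (expHyp_of_kum p A h hA r c hc hkum)

end Fermat.Agent.GZ.LocP.BOB.Asm
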