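/-
GATE-Z / LOC-p / (b) BOB, leaf (K4) (helper30): **at a PRIME level every Kummer class is new.**

`Kum_m(F_1) = 0` (`#Kum_m(F_N) = m ^ (2 dim S₂(Γ₀(N)))`, `GH/TorsionCount.natCard_kum`, and
`dim S₂(Γ₀(1)) ≤ genusFormula 1 = 0`, `S21_helper86.finrank_cuspForm_two_le`).  Hence both degeneracy
norms `α_*, β_* : Kum_m(F_{1 * q}) → Kum_m(F_1)` vanish, i.e. every class of `Kum_m(F_{1 * q})` is
`q`-new (`GB/B10/FrobSqKer.IsNew`), and `U_q = - W_q` on all of `Kum_m(F_{1 * q})`.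

* `genusFormula_one`, `finrank_cuspForm_one` : `dim S₂(SL₂(ℤ)) = 0`;
* `natCard_kum_one`, `subsingleton_kum_one` : `Kum_m(F_1)` is trivial;
* **`isNew_level_one`** : `IsNew h m y` for EVERY `y`, `h : ExactDvd q (1 * q)`, every `m ≠ 0`;
* **`Uq_eq_neg_Wq`**, `Uq_Uq`, `frobSq_sub_mem_M0mod_all` : consequences (`U = -W`, `U² = 1`,
  `τ (τ y) - y ∈ M⁰_m` for every class and every Frobenius lift `τ`).
-/
import Fermat.Agent.GB.B10.Phi2.FrobSqM0
import Fermat.Agent.S21_helper86.Final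

set_option autoImplicit false
set_option linter.unusedSectionVars false

noncomputable section

namespace Fermat.Agent.GZ.LocP.BOB.NewP

open AlgebraicCurve ModularCurve CongruenceSubgroup
open Fermat.Agent.GJ.KumGroup Fermat.Agent.GJ.Kum.KumType Fermat.Agent.GK.AL
open Fermat.Agent.GK.UTr Fermat.Agent.GB.B10.FrobSqKer Fermat.Agent.GH.TorsionCount

/-- `ℚ̄`. -/
local notation "Qb" => AlgebraicClosure ℚ
local notation "GQ" => (AlgebraicClosure ℚ ≃ₐ[ℚ] AlgebraicClosure ℚ)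

/-! ### level one -/

theorem nuTwo_one : nuTwo 1 = 1 := by
  rw [nuTwo, Nat.card_eq_fintype_card]
  decide

theorem nuThree_one : nuThree 1 = 1 := by
  rw [nuThree, Nat.card_eq_fintype_card]
  decide

theorem genusFormula_one : genusFormula 1 = 0 := by
  rw [genusFormula, dedekindPsi_one, nuTwo_one, nuThree_one, cuspCount_one]
  norm_num

/-- `dim S₂(SL₂(ℤ)) = 0`. -/
theorem finrank_cuspForm_one : Module.finrank ℂ (CuspForm (Gamma0 1) 2) = 0 := by
  obtain ⟨-, hle⟩ := Fermat.Agent.S21_helper86.finrank_cuspForm_two_le 1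
  rw [genusFormula_one] at hle
  have : (Module.finrank ℂ (CuspForm (Gamma0 1) 2) : ℚ) = 0 := le_antisymm hle (by positivity)
  exact_mod_cast this

/-- `# Kum_m(F_1) = 1`. -/
theorem natCard_kum_one (m : ℕ) [NeZero m] : Nat.card (Kum Qb (FK 1) m) = 1 := by
  rw [natCard_kum 1 m, finrank_cuspForm_one, mul_zero, pow_zero]

/-- `Kum_m(F_1)` is trivial. -/
theorem subsingleton_kum_one (m : ℕ) [NeZero m] : Subsingleton (Additive (Kum Qb (FK 1) m)) := by
  have h1 : Nat.card (Additive (Kum Qb (FK 1) m)) = 1 := natCard_kum_one m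
  exact (Nat.card_eq_one_iff_unique.1 h1).1

/-! ### every class is new at the level `1 * q` -/

section New

variable {q : ℕ} [Fact q.Prime] (h : ExactDvd q (1 * q)) (m : ℕ) [NeZero m]

/-- **every class of `Kum_m(F_{1 * q})` is `q`-new.** -/
theorem isNew_level_one (y : Additive (Kum Qb (FK (1 * q)) m)) : IsNew h m y := by
  have := subsingleton_kum_one m
  exact ⟨Subsingleton.elim _ _, Subsingleton.elim _ _⟩

/-- **`U_q = - W_q`** on all of `Kum_m(F_{1 * q})`. -/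
theorem Uq_eq_neg_Wq (y : Additive (Kum Qb (FK (1 * q)) m)) :
    Uq (N' := 1) m y = -Wq h m y :=
  (isNew_level_one h m y).U_eq

include h in
/-- `U_q² = 1` on all of `Kum_m(F_{1 * q})`. -/
theorem Uq_Uq (y : Additive (Kum Qb (FK (1 * q)) m)) :
    Uq (N' := 1) m (Uq (N' := 1) m y) = y :=
  (isNew_level_one h m y).UU

end New

/-- **`τ (τ y) - y ∈ M⁰_m`** for EVERY class `y` of `Kum_m(F_{1 * q})` and every Frobenius lift `τ`
at `A ∣ q` (`GB/B10/Phi2/FrobSqM0.frobSq_sub_mem_M0mod` with `isNew_level_one`). -/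
theorem frobSq_sub_mem_M0mod_all {q : ℕ} [Fact q.Prime] {h : ExactDvd q (1 * q)}
    {A : ValuationSubring Qb} {m : ℕ} [NeZero m] (hA : A.LiesOverPrime q) {τ : GQ}
    (hτ : A.IsFrobeniusAt τ q) (y : Additive (Kum Qb (FK (1 * q)) m)) :
    ((kummerEquivFK (1 * q) m (gal (1 * q) m τ (gal (1 * q) m τ y) - y) :
      Pic0.torsion Qb (FK (1 * q)) m) : JZero (1 * q)) ∈
      Fermat.Agent.GS.F.M0mod (1 * q) A h m :=
  Fermat.Agent.GB.B10.Phi2.FrobSqM0.frobSq_sub_mem_M0mod hA hτ (isNew_level_one h m y)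

end Fermat.Agent.GZ.LocP.BOB.NewP
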