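/-
GATE-Z / LOC-p / (b) BOB, the `ψ`-bridge of helper73's Eisenstein route (helper30):
**the abstract Hecke algebra `ℤ[X_ℓ : ℓ prime]` acts on `Kum_m(F_M)`** through
`ψ = kumHecke M ∅ m hζ ∘ heckeEvalForms M 2`, with

* `psi_X_of_not_dvd` (ψT) : `ψ (X ℓ) = kumTl M m ℓ.2 hℓ` for `ℓ ∤ M`;
* `psi_X_of_dvd`          : `ψ (X ℓ) = UEnd M m hℓ` for `ℓ ∣ M`;
* `psi_X_level_one` (ψU)  : at a level `1 * q`, `ψ (X ℓ) y = - W_q y` for `ℓ ∣ 1 * q`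
                            (`NewP.Uq_eq_neg_Wq`: every class is new);
* `psi_natCast`, `psi_of_eval` : `heckeEvalForms M 2 f = n ⟹ ψ f = n`.
-/
import Fermat.Agent.GK.Tate.KumHecke
import Fermat.Agent.GK.UQ.ESComm
import Fermat.Agent.GZ.LocP.BOB.NewP

set_option autoImplicit false
set_option linter.unusedSectionVars false

noncomputable section

namespace Fermat.Agent.GZ.LocP.BOB.PsiBridge

open AlgebraicCurve ModularCurve CuspForm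
open Fermat.Agent.GJ.KumGroup Fermat.Agent.GJ.Kum.KumType Fermat.Agent.GK.AL
open Fermat.Agent.GK.UQ Fermat.Agent.GK.Tate.KumHecke Fermat.Agent.GB.B10.FrobSqKer
open Fermat.Agent.GK.UqKronecker

/-- `ℚ̄`. -/
local notation "Qb" => AlgebraicClosure ℚ

/-- the standard primitive `m`-th root of unity of `ℂ`. -/
def zetaC (m : ℕ) : ℂ := Complex.exp (2 * Real.pi * Complex.I / m)

theorem isPrimitiveRoot_zetaC (m : ℕ) [NeZero m] : IsPrimitiveRoot (zetaC m) m :=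
  Complex.isPrimitiveRoot_exp m (NeZero.ne m)

variable (M : ℕ) [NeZero M] (m : ℕ) [NeZero m]

/-- **`ψ`** : the abstract Hecke algebra acting on `Kum_m(F_M)` (`S = ∅`: all `T_ℓ`, `ℓ ∤ M`, and
all `U_q`, `q ∣ M`). -/
def psi : HeckeAlg →+* Module.End (ZMod m) (Additive (Kum Qb (FK M) m)) :=
  (kumHecke M ∅ m (isPrimitiveRoot_zetaC m)).comp (heckeEvalForms M 2)

theorem psi_apply (f : HeckeAlg) :
    psi M m f = kumHecke M ∅ m (isPrimitiveRoot_zetaC m) (heckeEvalForms M 2 f) := rfl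

/-- **(ψT)** on `X_ℓ`, `ℓ ∤ M`, `ψ` is `T_ℓ`. -/
theorem psi_X_of_not_dvd (ℓ : Nat.Primes) (hℓ : ¬ (ℓ : ℕ) ∣ M) :
    psi M m (MvPolynomial.X ℓ) = kumTl M m ℓ.2 hℓ := by
  have e : (MvPolynomial.X ℓ : HeckeAlg) = heckeGen ℓ := rfl
  rw [psi_apply, e, heckeEvalForms_heckeGen_of_not_dvd hℓ]
  exact kumHecke_T M ∅ m (isPrimitiveRoot_zetaC m) ℓ.2 hℓ (Set.notMem_empty _)
    (Fermat.Agent.GJ.Kum.KumGate.hnMemHyp M ℓ.2 hℓ)
    (Fermat.Agent.GJ.Kum.KumGate.hnDivHyp M m ℓ.2 hℓ)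

/-- on `X_ℓ`, `ℓ ∣ M`, `ψ` is `U_ℓ`. -/
theorem psi_X_of_dvd (ℓ : Nat.Primes) (hℓ : (ℓ : ℕ) ∣ M) :
    haveI : Fact (ℓ : ℕ).Prime := ⟨ℓ.2⟩
    psi M m (MvPolynomial.X ℓ) = UEnd M m hℓ := by
  haveI : Fact (ℓ : ℕ).Prime := ⟨ℓ.2⟩
  have e : (MvPolynomial.X ℓ : HeckeAlg) = heckeGen ℓ := rfl
  rw [psi_apply, e, heckeEvalForms_heckeGen_of_dvd hℓ]
  exact kumHecke_U M ∅ m (isPrimitiveRoot_zetaC m) hℓ (Set.notMem_empty _)

/-- `ψ` of a polynomial whose image in the Hecke algebra of forms is the integer `n`. -/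
theorem psi_of_eval {f : HeckeAlg} {n : ℕ}
    (hf : heckeEvalForms M 2 f = ((n : ℕ) : ↥(heckeAlgebra M 2 ∅))) :
    psi M m f = (n : Module.End (ZMod m) (Additive (Kum Qb (FK M) m))) := by
  rw [psi_apply, hf, map_natCast]

variable {m} in
/-- **(ψU)** at a level `1 * q`: on `X_ℓ`, `ℓ ∣ 1 * q` (i.e. `ℓ = q`), `ψ` is `- W_q`. -/
theorem psi_X_level_one {q : ℕ} [Fact q.Prime] (h : ExactDvd q (1 * q)) (ℓ : Nat.Primes)
    (hℓ : (ℓ : ℕ) ∣ 1 * q) (y : Additive (Kum Qb (FK (1 * q)) m)) :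
    psi (1 * q) m (MvPolynomial.X ℓ) y = -autEnd (wAut h : FK (1 * q) ≃ₐ[Qb] FK (1 * q)) m y := by
  have hq : q.Prime := Fact.out
  have hℓq : (ℓ : ℕ) = q := by
    rw [one_mul] at hℓ
    exact (Nat.prime_dvd_prime_iff_eq ℓ.2 hq).1 hℓ
  obtain ⟨ℓ, hℓp⟩ := ℓ
  simp only at hℓq
  subst hℓq
  rw [psi_X_of_dvd (1 * ℓ) m ⟨ℓ, hℓp⟩ hℓ]
  exact NewP.Uq_eq_neg_Wq h m y

end Fermat.Agent.GZ.LocP.BOB.PsiBridge
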