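/-
GATE-Z / LOC-p / (b) BOB, FINAL PLUG of route H (helper30): **(b) = `Top.BOBHyp p A h r` from ONE
ring-theoretic binder (S16-BR)**:

  `∃ f : ℤ[X_ℓ], aeval (eisensteinSystem p) f = 0 ∧ heckeEvalForms p 2 f = n`,   `n > 0`

(`n = eisensteinNumerator p` from the frozen S16, helper73's `exists_eis_poly`).

Chain: `GB/A3/EisKill.eis_nsmul_mem` (helper73) with
* `ψ := PsiBridge.psi` (`kumHecke ∘ heckeEvalForms`, `S = ∅`), (ψT) `psi_X_of_not_dvd`,
  (ψU) `psi_X_level_one` (every class is new at a prime level: `NewP`);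
* `ChainHyp h A m 36 := Chain.chain36` (NODE36 helper26 ∘ A5P helper99);
then `Asm.bobHyp_of_kum` with `c := 36 * n`.

* `hkum_of_eis`   : the `Kum`-level statement at a level `N = 1 * q`, every modulus `m ≠ 0`;
* `expHyp_of_eis` : (b') `BobOfExp.ExpHyp p A h r`;
* **`bobHyp_of_eis`** : (b) `Top.BOBHyp p A h r`.
-/
import Fermat.Agent.GB.A3.EisKill
import Fermat.Agent.GZ.LocP.BOB.PsiBridge
import Fermat.Agent.GZ.LocP.BOB.Chain
import Fermat.Agent.GZ.LocP.BOB.Asm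

set_option autoImplicit false
set_option linter.unusedSectionVars false

noncomputable section

namespace Fermat.Agent.GZ.LocP.BOB.Plug

open AlgebraicCurve ModularCurve CuspForm
open Fermat.Agent.GJ.KumGroup Fermat.Agent.GJ.Kum.KumType Fermat.Agent.GK.AL
open Fermat.Agent.GK.UqKronecker Fermat.Agent.GB.A.FP
open Fermat.Agent.GB.A3.EisKill
open Fermat.Agent.GZ.LocP.Top Fermat.Agent.GZ.LocP.BobOfExp

/-- `ℚ̄`. -/
local notation "Qb" => AlgebraicClosure ℚ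

/-- **the `Kum`-level form of (b')** at a level `N = 1 * q`: `36 n` kills the inertia-invariant
classes of `Kum_m(F_N)` into the toric part, for every `m ≠ 0`. -/
theorem hkum_of_eis {N q : ℕ} [NeZero N] [Fact q.Prime] (hN : N = 1 * q) (h : ExactDvd q N)
    (A : ValuationSubring Qb) (hA : A.LiesOverPrime q) (hq2 : q ≠ 2) (hq3 : q ≠ 3)
    (m : ℕ) [NeZero m] {n : ℕ} {f : HeckeAlg}
    (hf : MvPolynomial.aeval (eisensteinSystem N) f = (0 : ℤ))
    (hfn : heckeEvalForms N 2 f = ((n : ℕ) : ↥(heckeAlgebra N 2 ∅))) :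
    ∀ y : Additive (Kum Qb (FK N) m), y ∈ invSub (M := N) A m →
      (36 * n) • y ∈ kerRed N A m ⊓ kerRed₂ h A m := by
  subst hN
  have hq : q.Prime := Fact.out
  haveI : NeZero q := ⟨hq.ne_zero⟩
  have hC : ChainHyp h A m 36 := fun u hfix hu =>
    Chain.chain36 h rfl A hA hq2 hq3 m u hfix hu
  exact eis_nsmul_mem hq hA (PsiBridge.psi (1 * q) m)
    (fun ℓ hℓ => PsiBridge.psi_X_of_not_dvd (1 * q) m ℓ hℓ)
    (fun ℓ hℓ y => PsiBridge.psi_X_level_one h ℓ hℓ y) hC hf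
    (PsiBridge.psi_of_eval (1 * q) m hfn)

variable (p : ℕ) [Fact p.Prime] [NeZero p] (A : ValuationSubring Qb) (h : ExactDvd p p)
  (r : ℕ) [NeZero r]

/-- **(b')** from (S16-BR). -/
theorem expHyp_of_eis (hA : A.LiesOverPrime p) (hp2 : p ≠ 2) (hp3 : p ≠ 3) {n : ℕ} (hn0 : 0 < n)
    {f : HeckeAlg} (hf : MvPolynomial.aeval (eisensteinSystem p) f = (0 : ℤ))
    (hfn : heckeEvalForms p 2 f = ((n : ℕ) : ↥(heckeAlgebra p 2 ∅))) :
    ExpHyp p A h r :=
  Asm.expHyp_of_kum p A h hA r (36 * n) (Nat.mul_pos (by norm_num) hn0) fun k y hy =>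
    hkum_of_eis (one_mul p).symm h A hA hp2 hp3 (r ^ k) hf hfn y hy

/-- **(b)** from (S16-BR). -/
theorem bobHyp_of_eis (hA : A.LiesOverPrime p) (hp2 : p ≠ 2) (hp3 : p ≠ 3) {n : ℕ} (hn0 : 0 < n)
    {f : HeckeAlg} (hf : MvPolynomial.aeval (eisensteinSystem p) f = (0 : ℤ))
    (hfn : heckeEvalForms p 2 f = ((n : ℕ) : ↥(heckeAlgebra p 2 ∅))) :
    BOBHyp p A h r :=
  bobHyp_of_expHyp (expHyp_of_eis p A h r hA hp2 hp3 hn0 hf hfn)

end Fermat.Agent.GZ.LocP.BOB.Plug
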