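/-
GATE-Z / LOC-p / leaf (b) = (BOB) CLOSED, BINDER-FREE (helper30, owner; route H of helper73).

For a prime `p ≠ 2, 3`, a place `A ∣ p` of `ℚ̄`, `h : ExactDvd p p` and EVERY `r ≠ 0`:

* **`expHyp`** : `BobOfExp.ExpHyp p A h r` — (b'): with `c := 36 * eisensteinNumerator p > 0`, for
  every `k` and every `v ∈ J₀(p)[r ^ k]` fixed by the inertia group `I_A`:
  `c • v ∈ M0mod p A h (r ^ k)` (the toric part);
* **`bobHyp`** : `Top.BOBHyp p A h r` — (b): `#J₀(p)[r^k]^{I_A} ≤ c₂ · #M0mod p A h (r^k)`,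
  `c₂ = c ^ (2 g)`, uniformly in `k`.

Chain: `Plug.bobHyp_of_eis` (`EisKill.eis_nsmul_mem` helper73; `PsiBridge`, `NewP`, `Chain.chain36` =
NODE36 helper26 ∘ A5P helper99; `Asm`) with (S16-BR) `GB/A3/EisPoly.exists_eis_poly` (helper73, from
the solved S16 and S23).
-/
import Fermat.Agent.GZ.LocP.BOB.Plug
import Fermat.Agent.GB.A3.EisPoly

set_option autoImplicit false
set_option linter.unusedSectionVars false

noncomputable section

namespace Fermat.Agent.GZ.LocP.BOB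

open AlgebraicCurve ModularCurve
open Fermat.Agent.GK.AL Fermat.Agent.GZ.LocP.Top Fermat.Agent.GZ.LocP.BobOfExp
open Fermat.Agent.GB.A3.EisPoly

/-- `ℚ̄`. -/
local notation "Qb" => AlgebraicClosure ℚ

variable (p : ℕ) [Fact p.Prime] [NeZero p] (A : ValuationSubring Qb) (h : ExactDvd p p)
  (r : ℕ) [NeZero r]

/-- **(b')** — the exponent form, binder-free. -/
theorem expHyp (hA : A.LiesOverPrime p) (hp2 : p ≠ 2) (hp3 : p ≠ 3) : ExpHyp p A h r := by
  obtain ⟨f, hf, hfn⟩ := exists_eis_poly p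
  exact Plug.expHyp_of_eis p A h r hA hp2 hp3 (eisensteinNumerator_pos p) hf hfn

/-- **(b) = (BOB)** — binder-free. -/
theorem bobHyp (hA : A.LiesOverPrime p) (hp2 : p ≠ 2) (hp3 : p ≠ 3) : BOBHyp p A h r :=
  bobHyp_of_expHyp (expHyp p A h r hA hp2 hp3)

end Fermat.Agent.GZ.LocP.BOB
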