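/-
GATE-Z / GZ-LOCP, fallback twin of the integrator's final file (helper30): **`(LOCP*)` binder-free**
and **`F.SelHyp p S r` binder-free**, assembled from `OfBob.locpStar_of_bob_fg` (helper12),
`BOB.bobHyp` (helper30), `S17.result` (Mordell–Weil) and `SelAsm.selHyp_of_locp` (helper79).
-/
import Fermat.Agent.GZ.LocP.OfBob
import Fermat.Agent.GZ.LocP.BOB.Main
import Fermat.Agent.GZ.F.SelAsm
import Fermat.Agent.S17

set_option autoImplicit false

noncomputable section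

namespace Fermat.Agent.GZ.LocP.BOB.LocpStarH30

open AlgebraicCurve ModularCurve

/-- `ℚ̄` -/
local notation "Qb" => AlgebraicClosure ℚ
/-- `G_ℚ` -/
local notation "GQ" => (AlgebraicClosure ℚ ≃ₐ[ℚ] AlgebraicClosure ℚ)

/-- **`(LOCP*)`, binder-free**: level `p ≥ 5` prime, `r ≠ p` prime, every place `A | p`. -/
theorem locpStar (p r : ℕ) [NeZero p] (hp : p.Prime) (hp5 : 5 ≤ p) (hr : r.Prime) (hrp : r ≠ p)
    (A : ValuationSubring Qb) (hA : A.LiesOverPrime p) :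
    ∃ n : ℕ, 0 < n ∧ ∀ z : JZero p, (∀ σ : GQ, σ • z = z) → ∀ k : ℕ,
      ∃ R : JZero p, r ^ k • R = n • z ∧ ∀ σ ∈ A.inertiaSubgroupIn ℚ, σ • R = R := by
  haveI : Fact p.Prime := ⟨hp⟩
  haveI : NeZero r := ⟨hr.ne_zero⟩
  have h : Fermat.Agent.GK.AL.ExactDvd p p := ⟨hp, dvd_rfl, fun hd => by
    have h1 : p ^ 2 ≤ p := Nat.le_of_dvd hp.pos hd
    nlinarith [hp.two_le]⟩
  exact Fermat.Agent.GZ.LocP.OfBob.locpStar_of_bob_fg p r hp hp5 hr hrp A h hA
    (Fermat.Agent.S17.result p hp hp5)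
    (Fermat.Agent.GZ.LocP.BOB.bobHyp p A h r hA (by omega) (by omega))

/-- **`F.SelHyp p S r`, binder-free** (arbitrary finite `S`, `r ≠ p` prime, `p ≥ 5` prime). -/
theorem selHyp (p : ℕ) [NeZero p] (hp : p.Prime) (hp5 : 5 ≤ p) (S : Finset ℕ) (r : ℕ)
    (hr : r.Prime) (hrp : r ≠ p) : Fermat.Agent.GZ.F.SelHyp p S r := by
  obtain ⟨A, hA⟩ := Fermat.Agent.Common_helper32.exists_liesOverPrime p hp
  obtain ⟨n, hn, hdiv⟩ := locpStar p r hp hp5 hr hrp A hA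
  exact Fermat.Agent.GZ.F.SelAsm.selHyp_of_locp hp hp5 S A hA r hr hrp n hn
    (fun k z hz => hdiv z hz k)

end Fermat.Agent.GZ.LocP.BOB.LocpStarH30
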