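/-
GATE-Z / LOC-p / (b) BOB, leaf (H3) of helper73's Eisenstein route (helper30):
**the toric part `K₁₂ = ker r₁ ⊓ ker r₂ ⊆ Kum_m(F_N)` is stable under `T_ℓ` (EVERY prime `ℓ ∤ N`,
including `ℓ ∣ m`), under `W_q`, and — at a level `1 * q` — under `U_q`.**

`GB/A/A5/HeckeKerRed.kumTl_mem_kerRed₂` needs `ℓ ∤ N m` (it gets `T_ℓ W = W T_ℓ` from
Eichler–Shimura).  Here the commutation is taken at FUNCTION level (helper19,
`GB/A/HeckeW/Units.heckeUnits_wAut`), so no condition on `ℓ` versus `m`.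

* `TEnd_autEnd_wAut`  : `T_ℓ (W x) = W (T_ℓ x)` on `Kum_m(F_N)`, any `m`;
* `TEnd_mem_kerRed`, `TEnd_mem_kerRed₂`, `TEnd_mem_inf` : `T_ℓ`-stability (any `hM`, `hD`);
* `autEnd_wAut_mem_inf` : `W_q` swaps `ker r₁` and `ker r₂`, hence preserves `K₁₂`;
* `Uq_mem_inf` : at the level `1 * q`, `U_q = -W_q` preserves `K₁₂`.
-/
import Fermat.Agent.GB.A.HeckeW.Units
import Fermat.Agent.GB.A1.FrobWAll
import Fermat.Agent.GZ.LocP.BOB.NewP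

set_option autoImplicit false
set_option linter.unusedSectionVars false

noncomputable section

namespace Fermat.Agent.GZ.LocP.BOB.Stab

open AlgebraicCurve ModularCurve
open Fermat.Agent.GJ.KumGroup Fermat.Agent.GJ.Kum.KumType Fermat.Agent.GK.AL
open Fermat.Agent.GK.UqKronecker Fermat.Agent.GB.A.HeckeW Fermat.Agent.GB.A.A5.HeckeKerRed
open Fermat.Agent.GB.B10.FrobSqKer

/-- `ℚ̄`. -/
local notation "Qb" => AlgebraicClosure ℚ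

section Level

variable {N : ℕ} [NeZero N] {A : ValuationSubring Qb} {q : ℕ} (h : ExactDvd q N) (m : ℕ)

section Hecke

variable {ℓ : ℕ} [Fact ℓ.Prime] [NeZero ℓ] (hℓN : ¬ ℓ ∣ N) (hM : HNMemHyp N ℓ)
  (hD : HNDivHyp N m ℓ)

include hℓN in
/-- **`T_ℓ ∘ W_q = W_q ∘ T_ℓ`** on `Kum_m(F_N)`, `ℓ ∤ N`, any `m`. -/
theorem TEnd_autEnd_wAut (x : Additive (Kum Qb (FK N) m)) :
    TEnd hM hD (autEnd (wAut h : FK N ≃ₐ[Qb] FK N) m x) =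
      autEnd (wAut h : FK N ≃ₐ[Qb] FK N) m (TEnd hM hD x) := by
  obtain ⟨u, rfl⟩ := exists_rep x
  rw [autEnd_mk, TEnd_mk, TEnd_mk, autEnd_mk]
  refine congrArg (fun v => Additive.ofMul (Kum.mk v)) (Subtype.ext ?_)
  exact heckeUnits_wAut h hℓN hM (u : (FK N)ˣ)

/-- `T_ℓ (ker r₁) ⊆ ker r₁`, for the `TEnd` of ANY pair `hM`, `hD`. -/
theorem TEnd_mem_kerRed {x : Additive (Kum Qb (FK N) m)} (hx : x ∈ kerRed N A m) :
    TEnd hM hD x ∈ kerRed N A m := by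
  obtain ⟨u, hu, rfl⟩ := mem_kerRed.mp hx
  refine mem_kerRed.mpr ⟨⟨heckeUnits hM u, heckeUnits_mem hM hD u u.2⟩, ?_, rfl⟩
  exact isCPrin_heckeNormSeries ℓ hu rfl

include hℓN in
/-- `T_ℓ (ker r₂) ⊆ ker r₂`, `ℓ ∤ N`, any `m` (no condition `ℓ ∤ m`). -/
theorem TEnd_mem_kerRed₂ {x : Additive (Kum Qb (FK N) m)} (hx : x ∈ kerRed₂ h A m) :
    TEnd hM hD x ∈ kerRed₂ h A m := by
  rw [mem_kerRed₂_iff] at hx ⊢
  rw [← TEnd_autEnd_wAut h m hℓN hM hD]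
  exact TEnd_mem_kerRed m hM hD hx

include hℓN in
/-- **`T_ℓ (K₁₂) ⊆ K₁₂`.** -/
theorem TEnd_mem_inf {x : Additive (Kum Qb (FK N) m)}
    (hx : x ∈ kerRed N A m ⊓ kerRed₂ h A m) :
    TEnd hM hD x ∈ kerRed N A m ⊓ kerRed₂ h A m :=
  ⟨TEnd_mem_kerRed m hM hD hx.1, TEnd_mem_kerRed₂ h m hℓN hM hD hx.2⟩

end Hecke

/-- **`W_q (K₁₂) ⊆ K₁₂`** (`W_q` swaps `ker r₁` and `ker r₂`). -/
theorem autEnd_wAut_mem_inf {x : Additive (Kum Qb (FK N) m)}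
    (hx : x ∈ kerRed N A m ⊓ kerRed₂ h A m) :
    autEnd (wAut h : FK N ≃ₐ[Qb] FK N) m x ∈ kerRed N A m ⊓ kerRed₂ h A m :=
  ⟨(mem_kerRed₂_iff h m x).1 hx.2, Fermat.Agent.GB.A1.autEnd_wAut_mem_kerRed₂ h hx.1⟩

end Level

/-- **`U_q (K₁₂) ⊆ K₁₂`** at the level `1 * q` (`U_q = -W_q` there). -/
theorem Uq_mem_inf {q : ℕ} [Fact q.Prime] (h : ExactDvd q (1 * q)) {A : ValuationSubring Qb}
    (m : ℕ) [NeZero m] {x : Additive (Kum Qb (FK (1 * q)) m)}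
    (hx : x ∈ kerRed (1 * q) A m ⊓ kerRed₂ h A m) :
    Uq (N' := 1) m x ∈ kerRed (1 * q) A m ⊓ kerRed₂ h A m := by
  rw [NewP.Uq_eq_neg_Wq h m x]
  exact (kerRed (1 * q) A m ⊓ kerRed₂ h A m).neg_mem (autEnd_wAut_mem_inf h m hx)

end Fermat.Agent.GZ.LocP.BOB.Stab
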